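import Fermat.Agent.EC.Red.ResidueQbar
import Fermat.Prelude.Def_ExtCitation_AdmissibleExtension

/-!
# The cyclotomic character mod `n` on the Galois group of `ℚ̄`

Values at Frobenius and inertia elements away from `n`, and at involutions.
-/

set_option autoImplicit false

noncomputable section

open IsLocalRing

namespace Fermat.Agent.EC

local notation "ℚ̄" => AlgebraicClosure ℚ
local notation "Γℚ" => (AlgebraicClosure ℚ ≃ₐ[ℚ] AlgebraicClosure ℚ)

/-- The mod `n` cyclotomic character of `Γ_ℚ`. -/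
def cycloChar (n : ℕ) [NeZero n] : Γℚ →* (ZMod n)ˣ :=
  MonoidHom.mk'
    (fun σ => modularCyclotomicCharacter ℚ̄ (IsAlgClosed.card_rootsOfUnity_eq ℚ̄ n)
      (σ : ℚ̄ ≃+* ℚ̄))
    (fun a b => by rw [← map_mul]; congr 1)

theorem modularCyclotomicCharacter_eq_cycloChar (n : ℕ) [NeZero n]
    (hn : Nat.card (rootsOfUnity n ℚ̄) = n) (σ : Γℚ) :
    modularCyclotomicCharacter ℚ̄ hn (σ : ℚ̄ ≃+* ℚ̄) = cycloChar n σ :=
  rfl

theorem cycloExp_eq (p : ℕ) [Fact p.Prime] [NeZero p] (σ : Γℚ) :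
    (ExtCitation.cycloExp p σ : ZMod p) = (cycloChar p σ : ZMod p) := by
  rw [ExtCitation.cycloExp, ZMod.natCast_zmod_val]
  rfl

theorem apply_eq_pow_cycloChar (n : ℕ) [NeZero n] (σ : Γℚ) {x : ℚ̄} (hx : x ^ n = 1) :
    σ x = x ^ (cycloChar n σ : ZMod n).val := by
  obtain ⟨u, rfl⟩ := IsUnit.of_pow_eq_one hx (NeZero.ne n)
  have hu : u ∈ rootsOfUnity n ℚ̄ := by
    rw [mem_rootsOfUnity]
    exact Units.ext (by simpa using hx)
  exact modularCyclotomicCharacter.spec ℚ̄ (IsAlgClosed.card_rootsOfUnity_eq ℚ̄ n)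
    (σ : ℚ̄ ≃+* ℚ̄) hu

theorem exists_primitiveRoot_qbar (n : ℕ) [NeZero n] : ∃ ζ : ℚ̄, IsPrimitiveRoot ζ n :=
  haveI : NeZero (n : ℚ̄) := ⟨Nat.cast_ne_zero.mpr (NeZero.ne n)⟩
  HasEnoughRootsOfUnity.exists_primitiveRoot ℚ̄ n

/-- The character is read off from the image of any primitive root. -/
theorem cycloChar_eq_of_apply_eq_pow (n : ℕ) [NeZero n] (σ : Γℚ) {ζ : ℚ̄}
    (hζ : IsPrimitiveRoot ζ n) {j : ℕ} (h : σ ζ = ζ ^ j) :
    (cycloChar n σ : ZMod n) = (j : ZMod n) := by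
  have h' := apply_eq_pow_cycloChar n σ hζ.pow_eq_one
  rw [h] at h'
  have hu := hζ.isUnit (NeZero.ne n)
  have : (j : ZMod n) = ((cycloChar n σ : ZMod n).val : ZMod n) := by
    rw [ZMod.natCast_eq_natCast_iff]
    have e := pow_eq_pow_iff_modEq.mp (show hu.unit ^ j = hu.unit ^ _ from Units.ext h')
    rwa [← (hζ.isUnit_unit (NeZero.ne n)).eq_orderOf] at e
  rw [this, ZMod.natCast_zmod_val]

/-- The cyclotomic character factors through a finite level. -/
theorem cycloChar_factors (n : ℕ) [NeZero n] :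
    ∃ L : IntermediateField ℚ ℚ̄, FiniteDimensional ℚ L ∧
      ∀ σ : Γℚ, (∀ x ∈ L, σ x = x) → cycloChar n σ = 1 := by
  obtain ⟨ζ, hζ⟩ := exists_primitiveRoot_qbar n
  refine ⟨IntermediateField.adjoin ℚ {ζ},
    IntermediateField.adjoin.finiteDimensional (hζ.isIntegral (NeZero.pos n)).tower_top, fun σ hσ => ?_⟩
  apply Units.ext
  rw [cycloChar_eq_of_apply_eq_pow n σ hζ (j := 1)
    (by rw [pow_one]; exact hσ ζ (IntermediateField.mem_adjoin_simple_self ℚ ζ))]
  simp

section Residue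

variable {L : Type*} [Field L] (A : ValuationSubring L)

theorem mem_of_pow_eq_one {n : ℕ} (hn : n ≠ 0) {x : L} (hx : x ^ n = 1) : x ∈ A := by
  rcases A.mem_or_inv_mem x with h | h
  · exact h
  · have hx' : x = (x⁻¹) ^ (n - 1) := by
      have hx0 : x ≠ 0 := by rintro rfl; simp [hn] at hx
      rw [inv_pow]
      refine eq_inv_of_mul_eq_one_left ?_
      rw [← pow_succ',
        Nat.sub_add_cancel (Nat.one_le_iff_ne_zero.mpr hn), hx]
    rw [hx']
    exact pow_mem h _

theorem eq_one_of_residue_eq_one {q n : ℕ} (hq : q.Prime) (hA : A.LiesOverPrime q)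
    (hn : ¬ q ∣ n) {x : A} (hx : x ^ n = 1) (hr : residue A x = 1) : x = 1 := by
  by_contra hne
  have hsum : ∑ i ∈ Finset.range n, x ^ i = 0 := by
    have := geom_sum_mul x n
    rw [hx, sub_self] at this
    exact (mul_eq_zero.mp this).resolve_right (sub_ne_zero.mpr hne)
  have := congrArg (residue A) hsum
  rw [map_sum, map_zero] at this
  simp only [map_pow, hr, one_pow, Finset.sum_const, Finset.card_range, nsmul_eq_mul,
    mul_one] at this
  exact natCast_residue_ne_zero A hq hA hn this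

theorem eq_of_residue_eq {q n : ℕ} (hq : q.Prime) (hA : A.LiesOverPrime q) (hn : ¬ q ∣ n)
    {x y : A} (hx : x ^ n = 1) (hy : y ^ n = 1) (hr : residue A x = residue A y) : x = y := by
  have hn0 : n ≠ 0 := by rintro rfl; exact hn (dvd_zero q)
  have hy' : y ^ (n - 1) * y = 1 := by
    rw [← pow_succ, Nat.sub_add_cancel (Nat.one_le_iff_ne_zero.mpr hn0), hy]
  have h1 : x * y ^ (n - 1) = 1 := by
    refine eq_one_of_residue_eq_one A hq hA hn ?_ ?_
    · rw [mul_pow, hx, one_mul, ← pow_mul, mul_comm, pow_mul, hy, one_pow]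
    · rw [map_mul, hr, ← map_mul, mul_comm, hy', map_one]
  calc x = x * (y ^ (n - 1) * y) := by rw [hy', mul_one]
    _ = y := by rw [← mul_assoc, h1, one_mul]

end Residue

/-- At a Frobenius element at `q ∤ n` the cyclotomic character takes the value `q`. -/
theorem cycloChar_eq_of_isFrobeniusAt {n q : ℕ} [NeZero n] (hq : q.Prime) (hn : ¬ q ∣ n)
    {A : ValuationSubring ℚ̄} (hA : A.LiesOverPrime q) {σ : Γℚ} (hσ : A.IsFrobeniusAt σ q) :
    (cycloChar n σ : ZMod n) = (q : ZMod n) := by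
  obtain ⟨ζ, hζ⟩ := exists_primitiveRoot_qbar n
  have hmem : ζ ∈ A := mem_of_pow_eq_one A (NeZero.ne n) hζ.pow_eq_one
  obtain ⟨h, hr⟩ := residue_apply_eq_of_isFrobeniusAt A hσ hmem
  refine cycloChar_eq_of_apply_eq_pow n σ hζ ?_
  have := eq_of_residue_eq A hq hA hn (x := ⟨σ ζ, h⟩) (y := ⟨ζ, hmem⟩ ^ q)
    (Subtype.ext (by simp [← map_pow, hζ.pow_eq_one]))
    (Subtype.ext (show (ζ ^ q) ^ n = 1 by rw [← pow_mul, mul_comm, pow_mul, hζ.pow_eq_one, one_pow]))
    (by rw [hr, map_pow])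
  simpa using congrArg Subtype.val this

/-- Inertia at `q ∤ n` acts trivially on `n`-th roots of unity. -/
theorem cycloChar_eq_one_of_mem_inertia {n q : ℕ} [NeZero n] (hq : q.Prime) (hn : ¬ q ∣ n)
    {A : ValuationSubring ℚ̄} (hA : A.LiesOverPrime q) {σ : Γℚ}
    (hσ : σ ∈ A.inertiaSubgroupIn ℚ) : cycloChar n σ = 1 := by
  obtain ⟨ζ, hζ⟩ := exists_primitiveRoot_qbar n
  have hmem : ζ ∈ A := mem_of_pow_eq_one A (NeZero.ne n) hζ.pow_eq_one
  obtain ⟨h, hr⟩ := residue_apply_eq_of_mem_inertia A hσ hmem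
  have := eq_of_residue_eq A hq hA hn (x := ⟨σ ζ, h⟩) (y := ⟨ζ, hmem⟩)
    (Subtype.ext (by simp [← map_pow, hζ.pow_eq_one]))
    (Subtype.ext (by simp [hζ.pow_eq_one])) hr
  apply Units.ext
  rw [cycloChar_eq_of_apply_eq_pow n σ hζ (j := 1) (by simpa using congrArg Subtype.val this)]
  simp

section Involution

variable {K : Type*} [Field K] [IsAlgClosed K] [CharZero K]

/-- An involution of an algebraically closed field fixes no root of unity of odd order `> 1`. -/
theorem eq_one_of_apply_eq_self_of_involutive (c : K ≃+* K) (hc : ∀ x, c (c x) = x)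
    (hne : c ≠ RingEquiv.refl K) {m : ℕ} (hm : Odd m) {ζ : K} (hζ : ζ ^ m = 1) (hfix : c ζ = ζ) :
    ζ = 1 := by
  obtain ⟨x, hx⟩ : ∃ x, c x ≠ x := by
    by_contra! h
    exact hne (RingEquiv.ext h)
  -- `d = x - c x` is anti-invariant
  set d := x - c x with hd
  have hd0 : d ≠ 0 := sub_ne_zero.mpr (Ne.symm hx)
  have hcd : c d = -d := by rw [hd, map_sub, hc, neg_sub]
  -- `-1` is not the square of a fixed element
  have hnI : ∀ j : K, c j = j → j ^ 2 ≠ -1 := by
    intro j hj hj2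
    obtain ⟨w, hw⟩ := IsAlgClosed.exists_pow_nat_eq d (n := 2) (by norm_num)
    have h1 : (c w) ^ 2 = (j * w) ^ 2 := by
      rw [← map_pow, hw, hcd, mul_pow, hj2, hw]; ring
    rcases eq_or_eq_neg_of_sq_eq_sq _ _ h1 with h | h
    · have := congrArg c h
      rw [hc, map_mul, hj, h] at this
      apply hd0
      have hw0 : w = 0 := by linear_combination this / 2 + (w / 2) * hj2
      rw [← hw, hw0]; ring
    · have := congrArg c h
      rw [hc, map_neg, map_mul, hj, h] at this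
      apply hd0
      have hw0 : w = 0 := by linear_combination this / 2 + (w / 2) * hj2
      rw [← hw, hw0]; ring
  obtain ⟨i, hi⟩ := IsAlgClosed.exists_pow_nat_eq (-1 : K) (n := 2) (by norm_num)
  have hci : c i = -i := by
    have h : (c i) ^ 2 = i ^ 2 := by rw [← map_pow, hi, map_neg, map_one]
    exact (eq_or_eq_neg_of_sq_eq_sq _ _ h).resolve_left fun h => hnI i h hi
  -- fixed sums of two squares of fixed elements are squares of fixed elements
  have hsq : ∀ a b : K, c a = a → c b = b → ∃ r, c r = r ∧ r ^ 2 = a ^ 2 + b ^ 2 := by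
    intro a b ha hb
    obtain ⟨z, hz⟩ := IsAlgClosed.exists_pow_nat_eq (a + i * b) (n := 2) (by norm_num)
    refine ⟨z * c z, by rw [map_mul, hc, mul_comm], ?_⟩
    rw [mul_pow, ← map_pow, hz, map_add, map_mul, ha, hb, hci]
    linear_combination (-b ^ 2) * hi
  by_contra hne1
  obtain ⟨k, hk⟩ := hm
  set u := ζ ^ (k + 1) with hu
  have hu2 : u ^ 2 = ζ := by
    rw [hu, ← pow_mul, show (k + 1) * 2 = m + 1 by omega, pow_succ, hζ, one_mul]
  have hcu : c u = u := by rw [hu, map_pow, hfix]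
  have hpart : ∀ N : ℕ, ∃ r, c r = r ∧ r ^ 2 = ∑ j ∈ Finset.range N, ζ ^ (j + 1) := by
    intro N
    induction N with
    | zero => exact ⟨0, map_zero c, by simp⟩
    | succ N ih =>
      obtain ⟨r, hr, hr2⟩ := ih
      obtain ⟨s, hs, hs2⟩ := hsq r (u ^ (N + 1)) hr (by rw [map_pow, hcu])
      refine ⟨s, hs, ?_⟩
      rw [hs2, hr2, Finset.sum_range_succ, ← pow_mul, mul_comm (N + 1) 2, pow_mul, hu2]
  obtain ⟨r, hr, hr2⟩ := hpart (2 * k)
  refine hnI r hr ?_
  have h0 : ∑ j ∈ Finset.range (2 * k + 1), ζ ^ j = 0 := by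
    have := geom_sum_mul ζ (2 * k + 1)
    rw [← hk, hζ, sub_self] at this
    rw [hk] at this
    exact (mul_eq_zero.mp this).resolve_right (sub_ne_zero.mpr hne1)
  rw [Finset.sum_range_succ', pow_zero] at h0
  rw [hr2]
  exact eq_neg_of_add_eq_zero_left h0

end Involution

/-- Any nontrivial involution in `Γ_ℚ` has cyclotomic character `-1` modulo a prime. -/
theorem cycloChar_eq_neg_one_of_involution {p : ℕ} [Fact p.Prime] [NeZero p] {c : Γℚ}
    (hc : c * c = 1) (hne : c ≠ 1) : cycloChar p c = -1 := by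
  rcases (Fact.out : p.Prime).eq_two_or_odd' with rfl | hodd
  · exact Subsingleton.elim _ _
  have hsq : ((cycloChar p c : ZMod p)) ^ 2 = 1 ^ 2 := by
    rw [one_pow, sq, ← Units.val_mul, ← map_mul, hc, map_one, Units.val_one]
  rcases eq_or_eq_neg_of_sq_eq_sq _ _ hsq with h | h
  · exfalso
    obtain ⟨ζ, hζ⟩ := exists_primitiveRoot_qbar p
    have hfix : c ζ = ζ := by
      have := apply_eq_pow_cycloChar p c hζ.pow_eq_one
      rwa [h, ZMod.val_one, pow_one] at this
    refine hζ.ne_one (Fact.out : p.Prime).one_lt ?_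
    refine eq_one_of_apply_eq_self_of_involutive (c : ℚ̄ ≃+* ℚ̄) (fun x => ?_) (fun h => ?_) hodd
      hζ.pow_eq_one hfix
    · exact AlgEquiv.congr_fun hc x
    · exact hne (AlgEquiv.ext fun x => RingEquiv.congr_fun h x)
  · exact Units.ext (by simpa using h)

end Fermat.Agent.EC
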