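import Fermat.Agent.EC.Det.Cyclotomic
import Fermat.Prelude.Def_GaloisRep_ComplexConjugation
import Mathlib.LinearAlgebra.TensorProduct.Basis

/-!
# Odd irreducible two-dimensional representations are absolutely irreducible
-/

set_option autoImplicit false

noncomputable section

open WeierstrassCurve.Affine.Point (galoisRepModuleEnd GaloisRepIsIrreducible)
open scoped WeierstrassCurve.Affine TensorProduct

namespace Fermat.Agent.EC

local notation "ℚ̄" => AlgebraicClosure ℚ
local notation "Γℚ" => (AlgebraicClosure ℚ ≃ₐ[ℚ] AlgebraicClosure ℚ)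

theorem complexConjugation_ne_one : (complexConjugation : Γℚ) ≠ 1 := by
  intro h
  obtain ⟨i, hi⟩ := IsAlgClosed.exists_pow_nat_eq (-1 : ℚ̄) (n := 2) (by norm_num)
  have hc := complexEmbedding_complexConjugation i
  rw [h, AlgEquiv.one_apply] at hc
  obtain ⟨r, hr⟩ := Complex.conj_eq_iff_real.mp hc.symm
  have h2 : (complexEmbedding i) ^ 2 = -1 := by rw [← map_pow, hi, map_neg, map_one]
  rw [hr, ← Complex.ofReal_pow] at h2
  have h3 := congrArg Complex.re h2
  simp only [Complex.ofReal_re, Complex.neg_re, Complex.one_re] at h3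
  nlinarith [sq_nonneg r]

variable {k : Type} [Field k]

/-- A two-dimensional involution of determinant `-1` has an eigenbasis. -/
theorem exists_eigenbasis_of_det_eq_neg_one {V : Type*} [AddCommGroup V] [Module k V]
    (h2 : (2 : k) ≠ 0) (hV : Module.finrank k V = 2) (f : Module.End k V) (hf : f * f = 1)
    (hdet : LinearMap.det f = -1) :
    ∃ b : Module.Basis (Fin 2) k V, f (b 0) = b 0 ∧ f (b 1) = -b 1 := by
  have : Module.Finite k V := Module.finite_of_finrank_eq_succ hV
  have hff : ∀ v, f (f v) = v := fun v => LinearMap.congr_fun hf v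
  have hne : ∀ s : k, s * s = 1 → ∃ v, f v ≠ s • v := by
    intro s hs
    by_contra! h
    have hfs : f = s • LinearMap.id := LinearMap.ext h
    rw [hfs, LinearMap.det_smul, hV, LinearMap.det_id, mul_one, sq, hs] at hdet
    exact h2 (by linear_combination hdet)
  obtain ⟨v, hv⟩ := hne (-1) (by ring)
  obtain ⟨u, hu⟩ := hne 1 (by ring)
  rw [neg_one_smul] at hv
  rw [one_smul] at hu
  let w : Fin 2 → V := ![f v + v, u - f u]
  have hw0 : w 0 ≠ 0 := fun h => hv (eq_neg_of_add_eq_zero_left h)
  have hw1 : w 1 ≠ 0 := fun h => hu (sub_eq_zero.mp h).symm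
  have hf0 : f (w 0) = w 0 := by simp [w, hff, add_comm]
  have hf1 : f (w 1) = -w 1 := by simp [w, hff]
  have hli : LinearIndependent k w := by
    rw [Fintype.linearIndependent_iff]
    intro g hg
    rw [Fin.sum_univ_two] at hg
    have hg' := congrArg f hg
    rw [map_add, map_smul, map_smul, hf0, hf1, map_zero, smul_neg] at hg'
    have e0 : (2 * g 0) • w 0 = 0 := by
      have := congrArg₂ (· + ·) hg hg'
      simp only [add_zero] at this
      rw [two_mul, add_smul]
      rwa [add_add_add_comm, add_neg_cancel, add_zero] at this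
    have g0 : g 0 = 0 :=
      (mul_eq_zero.mp ((smul_eq_zero.mp e0).resolve_right hw0)).resolve_left h2
    rw [g0, zero_smul, zero_add] at hg
    intro i
    fin_cases i
    · exact g0
    · exact (smul_eq_zero.mp hg).resolve_right hw1
  refine ⟨basisOfLinearIndependentOfCardEqFinrank hli (by simp [hV]), ?_⟩
  rw [coe_basisOfLinearIndependentOfCardEqFinrank]
  exact ⟨hf0, hf1⟩

/-- An odd irreducible residual representation is absolutely irreducible (characteristic `≠ 2`). -/
theorem isAbsolutelyIrreducible_of_isOdd (h2 : (2 : k) ≠ 0) (ρ : ResidualGaloisRep k)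
    (hirr : ρ.IsIrreducible) (hodd : ρ.IsOdd) : ρ.IsAbsolutelyIrreducible := by
  set c : Γℚ := complexConjugation
  have hf : ρ.ρ c * ρ.ρ c = 1 := by rw [← map_mul, complexConjugation_mul_self, map_one]
  obtain ⟨b, hb0, hb1⟩ := exists_eigenbasis_of_det_eq_neg_one h2 ρ.finrank_eq (ρ.ρ c) hf
    (hodd c complexConjugation_mul_self complexConjugation_ne_one)
  intro U hU
  change Submodule (AlgebraicClosure k) (AlgebraicClosure k ⊗[k] ρ.V) at U
  let k' := AlgebraicClosure k
  let B := Algebra.TensorProduct.basis k' b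
  have h2' : (2 : k') ≠ 0 := by
    have := (map_ne_zero (algebraMap k k')).mpr h2
    rwa [map_ofNat] at this
  have hB : ∀ i, B i = (1 : k') ⊗ₜ[k] b i := fun i => Algebra.TensorProduct.basis_apply b i
  have hU' : ∀ σ, ∀ x ∈ U, (ρ.ρ σ).baseChange k' x ∈ U := hU
  have hc0 : (ρ.ρ c).baseChange k' (B 0) = B 0 := by rw [hB, LinearMap.baseChange_tmul, hb0]
  have hc1 : (ρ.ρ c).baseChange k' (B 1) = -B 1 := by
    rw [hB, LinearMap.baseChange_tmul, hb1, TensorProduct.tmul_neg]
  rcases eq_or_ne U ⊥ with hbot | hbot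
  · exact Or.inl hbot
  right
  obtain ⟨x, hxU, hx0⟩ := Submodule.exists_mem_ne_zero_of_ne_bot hbot
  have hexp : x = B.repr x 0 • B 0 + B.repr x 1 • B 1 := by
    conv_lhs => rw [← B.sum_repr x, Fin.sum_univ_two]
  have hfx := hU' c x hxU
  rw [hexp, map_add, map_smul, map_smul, hc0, hc1] at hfx
  have hxU' := hexp ▸ hxU
  have hp0 : B.repr x 0 • B 0 ∈ U := by
    have := U.smul_mem (2 : k')⁻¹ (U.add_mem hxU' hfx)
    rwa [smul_neg, add_add_add_comm, add_neg_cancel, add_zero, ← two_smul k' (B.repr x 0 • B 0),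
      inv_smul_smul₀ h2'] at this
  have hp1 : B.repr x 1 • B 1 ∈ U := (Submodule.add_mem_iff_right U hp0).mp hxU'
  have hline : ∀ i j : Fin 2, i ≠ j → B i ∈ U → B j ∈ U := by
    intro i j hij hi
    by_contra hj
    have hmem : ∀ σ : Γℚ, b.repr (ρ.ρ σ (b i)) j = 0 := by
      intro σ
      by_contra h0
      apply hj
      have h1 := hU' σ (B i) hi
      have hsum : (ρ.ρ σ).baseChange k' (B i) =
          algebraMap k k' (b.repr (ρ.ρ σ (b i)) i) • B i
            + algebraMap k k' (b.repr (ρ.ρ σ (b i)) j) • B j := by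
        rw [hB, hB, LinearMap.baseChange_tmul, algebraMap_smul, algebraMap_smul,
          ← TensorProduct.tmul_smul, ← TensorProduct.tmul_smul, ← TensorProduct.tmul_add]
        congr 1
        conv_lhs => rw [← b.sum_repr (ρ.ρ σ (b i)), Fin.sum_univ_two]
        fin_cases i <;> fin_cases j <;> first | exact absurd rfl hij | rfl | exact add_comm _ _
      rw [hsum] at h1
      have := (Submodule.add_mem_iff_right U (U.smul_mem _ hi)).mp h1
      exact (U.smul_mem_iff ((map_ne_zero (algebraMap k k')).mpr h0)).mp this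
    rcases hirr (Submodule.span k {b i}) (fun σ y hy => by
        obtain ⟨t, rfl⟩ := Submodule.mem_span_singleton.mp hy
        rw [map_smul]
        refine Submodule.smul_mem _ t (Submodule.mem_span_singleton.mpr
          ⟨b.repr (ρ.ρ σ (b i)) i, ?_⟩)
        conv_rhs => rw [← b.sum_repr (ρ.ρ σ (b i))]
        rw [Finset.sum_eq_single i (fun l _ hl => ?_) (fun h => absurd (Finset.mem_univ i) h)]
        obtain rfl : l = j := by fin_cases i <;> fin_cases j <;> fin_cases l <;> simp at hij hl ⊢
        rw [hmem σ, zero_smul]) with h | h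
    · exact b.ne_zero i (Submodule.span_singleton_eq_bot.mp h)
    · have hbj : b j ∈ Submodule.span k {b i} := h ▸ Submodule.mem_top
      obtain ⟨t, ht⟩ := Submodule.mem_span_singleton.mp hbj
      have := congrArg (fun v => b.repr v j) ht
      simp [hij] at this
  have hall : ∀ i, B i ∈ U := by
    by_cases h0 : B.repr x 0 = 0
    · have h1 : B.repr x 1 ≠ 0 := fun h => hx0 (by rw [hexp, h0, h, zero_smul, zero_smul, add_zero])
      have hB1 := (U.smul_mem_iff h1).mp hp1
      intro i
      fin_cases i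
      · exact hline 1 0 (by decide) hB1
      · exact hB1
    · have hB0 := (U.smul_mem_iff h0).mp hp0
      intro i
      fin_cases i
      · exact hB0
      · exact hline 0 1 (by decide) hB0
  rw [eq_top_iff, ← B.span_eq, Submodule.span_le, Set.range_subset_iff]
  exact hall

theorem residualGaloisRepOf_isIrreducible {W : WeierstrassCurve ℚ} {p : ℕ} [Fact p.Prime]
    (hcard : Nat.card (Submodule.torsionBy ℤ (W⁄(AlgebraicClosure ℚ)).Point p) = p ^ 2)
    (hker : GaloisFactorsThroughFiniteLevel
      (galoisRepModuleEnd (K := AlgebraicClosure ℚ) ℚ W p))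
    (hirr : GaloisRepIsIrreducible (K := AlgebraicClosure ℚ) ℚ W p) :
    (W.residualGaloisRepOf p hcard hker).IsIrreducible :=
  fun U hU => hirr.2 U hU

/-- An irreducible `E[p]`, `p` odd, is absolutely irreducible. -/
theorem residualGaloisRepOf_isAbsolutelyIrreducible {W : WeierstrassCurve ℤ} (hΔ : W.Δ ≠ 0)
    {p : ℕ} [Fact p.Prime] (hp2 : p ≠ 2)
    (hcard : Nat.card (Submodule.torsionBy ℤ
      ((W.map (Int.castRingHom ℚ))⁄(AlgebraicClosure ℚ)).Point p) = p ^ 2)
    (hker : GaloisFactorsThroughFiniteLevel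
      (galoisRepModuleEnd (K := AlgebraicClosure ℚ) ℚ (W.map (Int.castRingHom ℚ)) p))
    (hirr : GaloisRepIsIrreducible (K := AlgebraicClosure ℚ) ℚ (W.map (Int.castRingHom ℚ)) p) :
    ((W.map (Int.castRingHom ℚ)).residualGaloisRepOf p hcard hker).IsAbsolutelyIrreducible := by
  have h2 : (2 : ZMod p) ≠ 0 := by
    rw [show (2 : ZMod p) = ((2 : ℕ) : ZMod p) by norm_num, Ne, ZMod.natCast_eq_zero_iff]
    intro h
    exact hp2 ((Nat.prime_dvd_prime_iff_eq (Fact.out : p.Prime) Nat.prime_two).mp h)
  exact isAbsolutelyIrreducible_of_isOdd h2 _ (residualGaloisRepOf_isIrreducible hcard hker hirr)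
    (residualGaloisRepOf_isOdd hΔ p hcard hker)

end Fermat.Agent.EC
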