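import Fermat.Agent.EC.Det.DetOfFrobenius
import Fermat.Agent.EC.Frob.Trace
import Fermat.Agent.EC.Torsion.Rat
import Fermat.Agent.Endgame.FreyCurve

/-!
# `det` of the Galois action on `E[p]` is the mod `p` cyclotomic character

No Weil pairing: both characters agree at Frobenius elements, which are dense.
-/

set_option autoImplicit false

noncomputable section

open WeierstrassCurve.Affine (Point)
open WeierstrassCurve.Affine.Point
open scoped WeierstrassCurve.Affine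

namespace Fermat.Agent.EC

local notation "ℚ̄" => AlgebraicClosure ℚ
local notation "Γℚ" => (AlgebraicClosure ℚ ≃ₐ[ℚ] AlgebraicClosure ℚ)

theorem isElliptic_map_rat {W : WeierstrassCurve ℤ} (hΔ : W.Δ ≠ 0) :
    (W.map (Int.castRingHom ℚ)).IsElliptic := by
  constructor
  rw [WeierstrassCurve.map_Δ]
  exact (Int.cast_ne_zero.mpr hΔ : ((W.Δ : ℤ) : ℚ) ≠ 0).isUnit

/-- The determinant of a Frobenius at a good prime `ℓ ≠ p` is `ℓ`. -/
theorem det_galoisRepModuleEnd_frobenius (W : WeierstrassCurve ℤ) (p : ℕ) [Fact p.Prime] {ℓ : ℕ}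
    (hℓ : ℓ.Prime) (hgood : W.IsGoodPrimeFor ℓ) (hne : ℓ ≠ p) {A : ValuationSubring ℚ̄}
    (hA : A.LiesOverPrime ℓ) {σ : Γℚ} (hσ : A.IsFrobeniusAt σ ℓ) :
    LinearMap.det (galoisRepModuleEnd (K := ℚ̄) ℚ (W.map (Int.castRingHom ℚ)) p σ)
      = (ℓ : ZMod p) :=
  EC.det_frobenius_torsion W hℓ hA hgood hσ (Fact.out : p.Prime).one_lt fun h =>
    hne ((Nat.prime_dvd_prime_iff_eq hℓ Fact.out).mp h)

variable {W : WeierstrassCurve ℤ}

/-- `det ρ_{E,p} = χ_p` for an integral model. -/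
theorem galoisRepDet_eq_cycloChar (hΔ : W.Δ ≠ 0) (p : ℕ) [hp : Fact p.Prime] [NeZero p] (σ : Γℚ) :
    galoisRepDet (S := ℚ) (K := ℚ̄) (W.map (Int.castRingHom ℚ)) p σ = cycloChar p σ := by
  haveI := isElliptic_map_rat hΔ
  haveI := finite_torsion_rat (W.map (Int.castRingHom ℚ)) hp.out.ne_zero
  refine galoisRepDet_eq_cycloChar_of_frobenius (W.map (Int.castRingHom ℚ)) p
    (W.Δ.natAbs.primeFactors ∪ {p}) (fun ℓ hℓ hℓS A τ hA hτ => ?_) σ
  simp only [Finset.mem_union, Finset.mem_singleton, not_or] at hℓS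
  refine det_galoisRepModuleEnd_frobenius W p hℓ (fun h => hℓS.1 ?_) hℓS.2 hA hτ
  exact Nat.mem_primeFactors.mpr ⟨hℓ, Int.natCast_dvd.mp h, Int.natAbs_ne_zero.mpr hΔ⟩

theorem galoisRepDetEqCyclotomic (hΔ : W.Δ ≠ 0) (p : ℕ) [Fact p.Prime] [NeZero p]
    (hn : Nat.card (rootsOfUnity p ℚ̄) = p) :
    GaloisRepDetEqCyclotomic (K := ℚ̄) ℚ (W.map (Int.castRingHom ℚ)) p hn :=
  galoisRepDet_eq_cycloChar hΔ p

theorem det_galoisRepModuleEnd_eq_cycloChar (hΔ : W.Δ ≠ 0) (p : ℕ) [Fact p.Prime] [NeZero p]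
    (σ : Γℚ) :
    LinearMap.det (galoisRepModuleEnd (K := ℚ̄) ℚ (W.map (Int.castRingHom ℚ)) p σ)
      = (cycloChar p σ : ZMod p) := by
  rw [← galoisRepDet_eq_cycloChar hΔ p σ, coe_galoisRepDet]

/-- `det ρ_{E,p}` is `1` on inertia away from `p`. -/
theorem det_galoisRepModuleEnd_inertia (hΔ : W.Δ ≠ 0) (p : ℕ) [hp : Fact p.Prime] {q : ℕ}
    (hq : q.Prime) (hne : q ≠ p) {A : ValuationSubring ℚ̄} (hA : A.LiesOverPrime q) {σ : Γℚ}
    (hσ : σ ∈ A.inertiaSubgroupIn ℚ) :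
    LinearMap.det (galoisRepModuleEnd (K := ℚ̄) ℚ (W.map (Int.castRingHom ℚ)) p σ) = 1 := by
  haveI : NeZero p := ⟨hp.out.ne_zero⟩
  rw [det_galoisRepModuleEnd_eq_cycloChar hΔ p σ, cycloChar_eq_one_of_mem_inertia hq
    (fun h => hne ((Nat.prime_dvd_prime_iff_eq hq hp.out).mp h)) hA hσ, Units.val_one]

/-- Every nontrivial involution acts on `E[p]` with determinant `-1`. -/
theorem det_galoisRepModuleEnd_involution (hΔ : W.Δ ≠ 0) (p : ℕ) [hp : Fact p.Prime] {c : Γℚ}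
    (hc : c * c = 1) (hne : c ≠ 1) :
    LinearMap.det (galoisRepModuleEnd (K := ℚ̄) ℚ (W.map (Int.castRingHom ℚ)) p c) = -1 := by
  haveI : NeZero p := ⟨hp.out.ne_zero⟩
  rw [det_galoisRepModuleEnd_eq_cycloChar hΔ p c, cycloChar_eq_neg_one_of_involution hc hne,
    Units.val_neg, Units.val_one]

theorem residualGaloisRepOf_isOdd (hΔ : W.Δ ≠ 0) (p : ℕ) [Fact p.Prime]
    (hcard : Nat.card (Submodule.torsionBy ℤ
      ((W.map (Int.castRingHom ℚ))⁄(AlgebraicClosure ℚ)).Point p) = p ^ 2)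
    (hker : GaloisFactorsThroughFiniteLevel
      (galoisRepModuleEnd (K := AlgebraicClosure ℚ) ℚ (W.map (Int.castRingHom ℚ)) p)) :
    ((W.map (Int.castRingHom ℚ)).residualGaloisRepOf p hcard hker).IsOdd :=
  fun _ hc hne => det_galoisRepModuleEnd_involution hΔ p hc hne

end Fermat.Agent.EC

namespace Fermat.Agent.EC.Frey

local notation "ℚ̄" => AlgebraicClosure ℚ
local notation "Γℚ" => (AlgebraicClosure ℚ ≃ₐ[ℚ] AlgebraicClosure ℚ)

theorem galoisRepDet_eq_cycloChar (P : FreyPackage) [NeZero P.p] (σ : Γℚ) :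
    galoisRepDet (S := ℚ) (K := ℚ̄) P.freyCurve P.p σ = cycloChar P.p σ := by
  haveI : Fact P.p.Prime := ⟨P.pp⟩
  rw [← Fermat.Agent.Endgame.freyCurveInt_map P]
  exact EC.galoisRepDet_eq_cycloChar (Fermat.Agent.Endgame.freyCurveInt_Δ_ne_zero P) P.p σ

theorem galoisRepDetEqCyclotomic (P : FreyPackage) [NeZero P.p]
    (hn : Nat.card (rootsOfUnity P.p ℚ̄) = P.p) :
    GaloisRepDetEqCyclotomic (K := ℚ̄) ℚ P.freyCurve P.p hn :=
  galoisRepDet_eq_cycloChar P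

theorem detCyclotomicOnInertiaAtP (P : FreyPackage) : P.DetCyclotomicOnInertiaAtP := by
  haveI : NeZero P.p := ⟨P.pp.ne_zero⟩
  exact fun _ _ σ _ => galoisRepDet_eq_cycloChar P σ

end Fermat.Agent.EC.Frey
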