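import Fermat.Agent.EC.Det.VariableChangePoint
import Fermat.Prelude.Def_FreyPackage_DetCyclotomic
import Fermat.Prelude.Def_GaloisRep_ResidualEquiv
import Mathlib.LinearAlgebra.Charpoly.ToMatrix
import Mathlib.LinearAlgebra.Trace

/-!
# Transport of Galois representations along a change of variables

If `C • W = W'` over a base ring `R`, the torsion of `W'(K)` and `W(K)` are isomorphic compatibly
with every `S`-automorphism of `K`, so all invariants of the mod-`n` representations agree.
Also: every curve over `ℚ` has an integral model.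
-/

set_option autoImplicit false

universe r s v

namespace Fermat.Agent.EC

open WeierstrassCurve
open WeierstrassCurve.Affine.Point (galoisRepModuleEnd galoisTrace galoisTrace_def galoisRep galoisRepDet
  galoisRepDet_apply GaloisRepDetEqCyclotomic GaloisRepIsIrreducible IsGaloisStable
  GaloisRepUnramifiedAt algEquiv_smul_def)
open scoped WeierstrassCurve.Affine

section General

variable {R : Type r} {S : Type s} {K : Type v} [CommRing R] [CommRing S] [Field K]
  [DecidableEq K] [Algebra R S] [Algebra R K] [Algebra S K] [IsScalarTower R S K]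
  {C : VariableChange R} {W W' : Affine R} (h : C • W = W')

include h

omit [DecidableEq K] in
lemma vc_baseChange : (C.baseChange K) • (W⁄K : Affine K) = (W'⁄K) := by
  show (C.map (algebraMap R K)) • (W.map (algebraMap R K)) = W'.map (algebraMap R K)
  rw [map_variableChange, h]

/-- `W'(K) ≃+ W(K)` for `C • W = W'` over the base ring. -/
noncomputable def baseChangePointEquiv : (W'⁄K).Point ≃+ (W⁄K).Point :=
  vcPointEquiv (vc_baseChange (K := K) h)

lemma baseChangePointEquiv_smul (σ : K ≃ₐ[S] K) (P : (W'⁄K).Point) :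
    baseChangePointEquiv (K := K) h (σ • P) = σ • baseChangePointEquiv (K := K) h P := by
  rcases P with _ | ⟨x, y, hxy⟩
  · rfl
  · have hc : ∀ a : R, σ (algebraMap R K a) = algebraMap R K a := fun a => by
      rw [IsScalarTower.algebraMap_apply R S K, σ.commutes]
    simp only [algEquiv_smul_def, baseChangePointEquiv, Affine.Point.map_some, vcPointEquiv_some,
      Affine.Point.some.injEq]
    simp [vcX, vcY, VariableChange.baseChange, hc]

/-- `W'[n] ≃ W[n]` as `ZMod n`-modules. -/
noncomputable def torsionEquiv (n : ℕ) :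
    Submodule.torsionBy ℤ (W'⁄K).Point n ≃ₗ[ZMod n] Submodule.torsionBy ℤ (W⁄K).Point n :=
  AddEquiv.toLinearEquiv
    { toFun := fun P => ⟨baseChangePointEquiv (K := K) h P, by
        have hP := P.property
        rw [Submodule.mem_torsionBy_iff] at hP ⊢
        rw [← map_zsmul, hP, map_zero]⟩
      invFun := fun P => ⟨(baseChangePointEquiv (K := K) h).symm P, by
        have hP := P.property
        rw [Submodule.mem_torsionBy_iff] at hP ⊢
        rw [← map_zsmul, hP, map_zero]⟩
      left_inv := fun P => by simp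
      right_inv := fun P => by simp
      map_add' := fun P Q => by ext; simp }
    (fun c P => ZMod.map_smul (AddEquiv.toAddMonoidHom _) c P)

@[simp]
lemma coe_torsionEquiv (n : ℕ) (P : Submodule.torsionBy ℤ (W'⁄K).Point n) :
    (torsionEquiv (K := K) h n P : (W⁄K).Point) = baseChangePointEquiv (K := K) h P :=
  rfl

lemma torsionEquiv_smul (n : ℕ) (σ : K ≃ₐ[S] K)
    (P : Submodule.torsionBy ℤ (W'⁄K).Point n) :
    torsionEquiv (K := K) h n (σ • P) = σ • torsionEquiv (K := K) h n P :=
  Subtype.ext (baseChangePointEquiv_smul h σ _)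

lemma natCard_torsionBy_eq (n : ℕ) :
    Nat.card (Submodule.torsionBy ℤ (W'⁄K).Point n) =
      Nat.card (Submodule.torsionBy ℤ (W⁄K).Point n) :=
  Nat.card_congr (torsionEquiv (K := K) h n).toEquiv

lemma galoisRepModuleEnd_eq_conj (n : ℕ) (σ : K ≃ₐ[S] K) :
    galoisRepModuleEnd S W n σ =
      (torsionEquiv (K := K) h n).conj (galoisRepModuleEnd S W' n σ) := by
  refine LinearMap.ext fun x => ?_
  simp [LinearEquiv.conj_apply, torsionEquiv_smul h]

lemma galoisTrace_eq (n : ℕ) (σ : K ≃ₐ[S] K) :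
    galoisTrace S W n σ = galoisTrace S W' n σ := by
  rw [galoisTrace_def, galoisTrace_def, galoisRepModuleEnd_eq_conj h n σ]
  exact LinearMap.trace_conj' _ _

lemma det_galoisRepModuleEnd_eq (n : ℕ) (σ : K ≃ₐ[S] K) :
    LinearMap.det (galoisRepModuleEnd S W n σ) = LinearMap.det (galoisRepModuleEnd S W' n σ) := by
  rw [galoisRepModuleEnd_eq_conj h n σ, LinearEquiv.conj_apply, LinearMap.comp_assoc]
  exact LinearMap.det_conj _ (torsionEquiv (K := K) h n)

lemma charpoly_galoisRepModuleEnd_eq (n : ℕ) (σ : K ≃ₐ[S] K)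
    [Module.Free (ZMod n) (Submodule.torsionBy ℤ (W⁄K).Point n)]
    [Module.Finite (ZMod n) (Submodule.torsionBy ℤ (W⁄K).Point n)]
    [Module.Free (ZMod n) (Submodule.torsionBy ℤ (W'⁄K).Point n)]
    [Module.Finite (ZMod n) (Submodule.torsionBy ℤ (W'⁄K).Point n)] :
    (galoisRepModuleEnd S W n σ).charpoly = (galoisRepModuleEnd S W' n σ).charpoly := by
  rw [galoisRepModuleEnd_eq_conj h n σ, LinearEquiv.charpoly_conj]

lemma galoisRep_eq_conj (n : ℕ) (σ : K ≃ₐ[S] K) :
    galoisRep (S := S) W n σ =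
      ((torsionEquiv (K := K) h n).symm.trans (galoisRep (S := S) W' n σ)).trans
        (torsionEquiv (K := K) h n) := by
  refine LinearEquiv.ext fun x => ?_
  simp [torsionEquiv_smul h]

lemma galoisRepDet_eq (n : ℕ) (σ : K ≃ₐ[S] K) :
    galoisRepDet (S := S) (K := K) W n σ = galoisRepDet (S := S) (K := K) W' n σ := by
  rw [galoisRepDet_apply, galoisRepDet_apply, galoisRep_eq_conj h n σ, LinearEquiv.det_conj]

lemma galoisRepDetEqCyclotomic_iff (n : ℕ) [NeZero n] (hn : Nat.card (rootsOfUnity n K) = n) :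
    GaloisRepDetEqCyclotomic S W n hn ↔ GaloisRepDetEqCyclotomic S W' n hn :=
  forall_congr' fun σ => by rw [galoisRepDet_eq h n σ]

lemma galoisRepModuleEnd_eq_one_iff (n : ℕ) (σ : K ≃ₐ[S] K) :
    galoisRepModuleEnd S W n σ = 1 ↔ galoisRepModuleEnd S W' n σ = 1 := by
  rw [galoisRepModuleEnd_eq_conj h n σ]
  have h1 : (torsionEquiv (K := K) h n).conj 1 = 1 := LinearEquiv.conj_id _
  conv_lhs => rw [← h1]
  exact (LinearEquiv.conj (torsionEquiv (K := K) h n)).injective.eq_iff

lemma galoisRepIsIrreducible_of (n : ℕ) (hirr : GaloisRepIsIrreducible (K := K) S W' n) :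
    GaloisRepIsIrreducible (K := K) S W n := by
  obtain ⟨hnt, hmax⟩ := hirr
  refine ⟨(torsionEquiv (K := K) h n).toEquiv.nontrivial_congr.mp hnt, fun N hN => ?_⟩
  have hN' : IsGaloisStable S (N.comap (torsionEquiv (K := K) h n).toLinearMap) := fun σ x hx => by
    simp only [Submodule.mem_comap, LinearEquiv.coe_coe, torsionEquiv_smul h] at hx ⊢
    exact hN σ _ hx
  rcases hmax _ hN' with h' | h'
  · left
    rw [eq_bot_iff] at h' ⊢
    intro x hx
    have := h' (show (torsionEquiv (K := K) h n).symm x ∈ _ by simpa using hx)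
    simpa using this
  · right
    rw [eq_top_iff] at h' ⊢
    intro x _
    simpa using h' (show (torsionEquiv (K := K) h n).symm x ∈ ⊤ from trivial)

lemma galoisRepIsIrreducible_iff (n : ℕ) :
    GaloisRepIsIrreducible (K := K) S W n ↔ GaloisRepIsIrreducible (K := K) S W' n :=
  ⟨galoisRepIsIrreducible_of (show C⁻¹ • W' = W by rw [← h, inv_smul_smul]) n,
    galoisRepIsIrreducible_of h n⟩

end General

section Field

variable {R : Type r} {S : Type s} {K : Type v} [CommRing R] [Field S] [Field K]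
  [DecidableEq K] [Algebra R S] [Algebra R K] [Algebra S K] [IsScalarTower R S K]
  {C : VariableChange R} {W W' : Affine R} (h : C • W = W')

include h

lemma galoisRepUnramifiedAt_iff (n q : ℕ) :
    GaloisRepUnramifiedAt S K W n q ↔ GaloisRepUnramifiedAt S K W' n q := by
  refine forall₄_congr fun A _ σ _ => ⟨fun H x => ?_, fun H x => ?_⟩
  · apply (torsionEquiv (K := K) h n).injective
    rw [torsionEquiv_smul h, H]
  · obtain ⟨y, rfl⟩ := (torsionEquiv (K := K) h n).surjective x
    rw [← torsionEquiv_smul h, H]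

end Field

section Qbar

variable {C : VariableChange ℚ} {W W' : WeierstrassCurve ℚ} (h : C • W = W')

include h

lemma factorsThroughFiniteLevel_iff (n : ℕ) :
    GaloisFactorsThroughFiniteLevel
        (galoisRepModuleEnd (K := AlgebraicClosure ℚ) ℚ W n) ↔
      GaloisFactorsThroughFiniteLevel
        (galoisRepModuleEnd (K := AlgebraicClosure ℚ) ℚ W' n) :=
  exists_congr fun _ => and_congr_right fun _ => forall₂_congr fun σ _ =>
    galoisRepModuleEnd_eq_one_iff h n σ

lemma residualGaloisRepOf_isEquiv (p : ℕ) [Fact p.Prime]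
    (hcard : Nat.card (Submodule.torsionBy ℤ (W⁄(AlgebraicClosure ℚ)).Point p) = p ^ 2)
    (hker : GaloisFactorsThroughFiniteLevel
      (galoisRepModuleEnd (K := AlgebraicClosure ℚ) ℚ W p))
    (hcard' : Nat.card (Submodule.torsionBy ℤ (W'⁄(AlgebraicClosure ℚ)).Point p) = p ^ 2)
    (hker' : GaloisFactorsThroughFiniteLevel
      (galoisRepModuleEnd (K := AlgebraicClosure ℚ) ℚ W' p)) :
    ResidualGaloisRep.IsEquiv (W'.residualGaloisRepOf p hcard' hker')
      (W.residualGaloisRepOf p hcard hker) :=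
  ⟨{ toLinearEquiv := torsionEquiv (K := AlgebraicClosure ℚ) h p
     map_apply := fun σ x => torsionEquiv_smul h p σ x }⟩

end Qbar

section IntegralModel

/-- Every Weierstrass curve over `ℚ` has an integral model. -/
theorem exists_integralModel (E : WeierstrassCurve ℚ) :
    ∃ W : WeierstrassCurve ℤ, W.IsIntegralModelOf E := by
  set D : ℕ := E.a₁.den * E.a₂.den * E.a₃.den * E.a₄.den * E.a₆.den with hD
  have hD0 : (D : ℚ) ≠ 0 := by simp [hD]
  have key : ∀ (a : ℚ) (k : ℕ), a.den ∣ D → 0 < k → ∃ z : ℤ, (z : ℚ) = (D : ℚ) ^ k * a := by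
    intro a k hdvd hk
    obtain ⟨m, hm⟩ := hdvd
    obtain ⟨j, rfl⟩ := Nat.exists_eq_succ_of_ne_zero hk.ne'
    refine ⟨(D : ℤ) ^ j * m * a.num, ?_⟩
    have ha : a * (a.den : ℚ) = (a.num : ℚ) := Rat.mul_den_eq_num a
    rw [pow_succ]
    push_cast
    rw [← ha, hm]
    push_cast
    ring
  obtain ⟨z₁, hz₁⟩ := key E.a₁ 1 (by simp [hD, mul_assoc]) (by norm_num)
  obtain ⟨z₂, hz₂⟩ := key E.a₂ 2 (⟨E.a₁.den * E.a₃.den * E.a₄.den * E.a₆.den, by rw [hD]; ring⟩)
    (by norm_num)
  obtain ⟨z₃, hz₃⟩ := key E.a₃ 3 (⟨E.a₁.den * E.a₂.den * E.a₄.den * E.a₆.den, by rw [hD]; ring⟩)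
    (by norm_num)
  obtain ⟨z₄, hz₄⟩ := key E.a₄ 4 (⟨E.a₁.den * E.a₂.den * E.a₃.den * E.a₆.den, by rw [hD]; ring⟩)
    (by norm_num)
  obtain ⟨z₆, hz₆⟩ := key E.a₆ 6 (dvd_mul_left _ _) (by norm_num)
  refine ⟨⟨z₁, z₂, z₃, z₄, z₆⟩, ⟨(Units.mk0 (D : ℚ) hD0)⁻¹, 0, 0, 0⟩, ?_⟩
  ext <;> simp [variableChange_def, hz₁, hz₂, hz₃, hz₄, hz₆]

lemma IsIntegralModelOf.Δ_ne_zero {W : WeierstrassCurve ℤ} {E : WeierstrassCurve ℚ}
    [E.IsElliptic] (hW : W.IsIntegralModelOf E) : W.Δ ≠ 0 := by
  obtain ⟨C, hC⟩ := hW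
  intro hΔ
  have h : (C • E).Δ = 0 := by rw [hC, map_Δ, hΔ, map_zero]
  exact (C • E).isUnit_Δ.ne_zero h

/-- Reduction of a statement on all elliptic curves over `ℚ` to integral models:
the determinant of the mod-`n` representation. -/
theorem galoisRepDetEqCyclotomic_of_integral (n : ℕ) [NeZero n]
    (hn : Nat.card (rootsOfUnity n (AlgebraicClosure ℚ)) = n)
    (H : ∀ W : WeierstrassCurve ℤ, W.Δ ≠ 0 →
      GaloisRepDetEqCyclotomic ℚ (W.map (Int.castRingHom ℚ)).toAffine n hn)
    (E : WeierstrassCurve ℚ) [E.IsElliptic] :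
    GaloisRepDetEqCyclotomic ℚ E.toAffine n hn := by
  obtain ⟨W, hW⟩ := exists_integralModel E
  have hΔ := IsIntegralModelOf.Δ_ne_zero hW
  obtain ⟨C, hC⟩ := hW
  exact (galoisRepDetEqCyclotomic_iff hC n hn).mpr (H W hΔ)

end IntegralModel

end Fermat.Agent.EC
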