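import Mathlib.AlgebraicGeometry.EllipticCurve.Affine.Point
import Mathlib.AlgebraicGeometry.EllipticCurve.VariableChange
import Mathlib.Tactic.LinearCombination
import Mathlib.Tactic.FieldSimp

/-!
# Points and admissible changes of variables

If `C • W = W'` over a field `K`, then `(x, y) ↦ (u²x + r, u³y + u²sx + t)` is a group
isomorphism `W'(K) ≃+ W(K)`.
-/

set_option autoImplicit false

universe u v

namespace Fermat.Agent.EC

open WeierstrassCurve

section Coordinates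

variable {K : Type u} [Field K] (C : VariableChange K)

/-- `x ↦ u²x + r`. -/
def vcX (x : K) : K := (C.u : K) ^ 2 * x + C.r

/-- `(x, y) ↦ u³y + u²sx + t`. -/
def vcY (x y : K) : K := (C.u : K) ^ 3 * y + (C.u : K) ^ 2 * C.s * x + C.t

lemma vcX_injective : Function.Injective (vcX C) := fun a b h => by
  simpa [vcX, pow_ne_zero 2 C.u.ne_zero] using h

lemma vcY_injective (x : K) : Function.Injective (vcY C x) := fun a b h => by
  simpa [vcY, pow_ne_zero 3 C.u.ne_zero] using h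

variable {C}
variable {W W' : Affine K} (h : C • W = W')

include h

lemma vc_a₁ : W.a₁ = (C.u : K) * W'.a₁ - 2 * C.s := by
  subst h
  simp only [variableChange_a₁, ← mul_assoc, Units.mul_inv, one_mul]
  ring

lemma vc_a₂ :
    W.a₂ = (C.u : K) ^ 2 * W'.a₂ + C.s * W.a₁ - 3 * C.r + C.s ^ 2 := by
  subst h
  simp only [variableChange_a₂, ← mul_assoc, ← mul_pow, Units.mul_inv, one_pow, one_mul]
  ring

lemma vc_a₃ : W.a₃ = (C.u : K) ^ 3 * W'.a₃ - C.r * W.a₁ - 2 * C.t := by
  subst h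
  simp only [variableChange_a₃, ← mul_assoc, ← mul_pow, Units.mul_inv, one_pow, one_mul]
  ring

lemma vc_a₄ :
    W.a₄ = (C.u : K) ^ 4 * W'.a₄ + C.s * W.a₃ - 2 * C.r * W.a₂ + (C.t + C.r * C.s) * W.a₁
      - 3 * C.r ^ 2 + 2 * C.s * C.t := by
  subst h
  simp only [variableChange_a₄, ← mul_assoc, ← mul_pow, Units.mul_inv, one_pow, one_mul]
  ring

lemma vc_a₆ :
    W.a₆ = (C.u : K) ^ 6 * W'.a₆ - C.r * W.a₄ - C.r ^ 2 * W.a₂ - C.r ^ 3 + C.t * W.a₃ + C.t ^ 2
      + C.r * C.t * W.a₁ := by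
  subst h
  simp only [variableChange_a₆, ← mul_assoc, ← mul_pow, Units.mul_inv, one_pow, one_mul]
  ring

lemma vc_evalEval_polynomial (x y : K) :
    W.polynomial.evalEval (vcX C x) (vcY C x y) =
      (C.u : K) ^ 6 * W'.polynomial.evalEval x y := by
  rw [Affine.evalEval_polynomial, Affine.evalEval_polynomial, vc_a₆ h, vc_a₄ h, vc_a₃ h, vc_a₂ h,
    vc_a₁ h, vcX, vcY]
  ring

lemma vc_evalEval_polynomialY (x y : K) :
    W.polynomialY.evalEval (vcX C x) (vcY C x y) =
      (C.u : K) ^ 3 * W'.polynomialY.evalEval x y := by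
  rw [Affine.evalEval_polynomialY, Affine.evalEval_polynomialY, vc_a₃ h, vc_a₁ h, vcX, vcY]
  ring

lemma vc_evalEval_polynomialX (x y : K) :
    W.polynomialX.evalEval (vcX C x) (vcY C x y) =
      (C.u : K) ^ 4 * W'.polynomialX.evalEval x y -
        C.s * (C.u : K) ^ 3 * W'.polynomialY.evalEval x y := by
  rw [Affine.evalEval_polynomialX, Affine.evalEval_polynomialX, Affine.evalEval_polynomialY,
    vc_a₄ h, vc_a₃ h, vc_a₂ h, vc_a₁ h, vcX, vcY]
  ring

lemma vc_equation_iff (x y : K) :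
    W.Equation (vcX C x) (vcY C x y) ↔ W'.Equation x y := by
  rw [Affine.Equation, Affine.Equation, vc_evalEval_polynomial h, mul_eq_zero]
  simp

lemma vc_nonsingular_iff (x y : K) :
    W.Nonsingular (vcX C x) (vcY C x y) ↔ W'.Nonsingular x y := by
  rw [Affine.Nonsingular, Affine.Nonsingular, vc_equation_iff h, vc_evalEval_polynomialX h,
    vc_evalEval_polynomialY h]
  refine and_congr_right fun _ => ?_
  by_cases hY : W'.polynomialY.evalEval x y = 0
  · simp [hY]
  · simp [hY]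

lemma vc_negY (x y : K) :
    W.negY (vcX C x) (vcY C x y) = vcY C x (W'.negY x y) := by
  rw [Affine.negY, Affine.negY, vc_a₃ h, vc_a₁ h, vcX, vcY, vcY]
  ring

lemma vc_addX (x₁ x₂ l : K) :
    W.addX (vcX C x₁) (vcX C x₂) ((C.u : K) * l + C.s) = vcX C (W'.addX x₁ x₂ l) := by
  rw [Affine.addX, Affine.addX, vc_a₂ h, vc_a₁ h, vcX, vcX, vcX]
  ring

lemma vc_addY (x₁ x₂ y₁ l : K) :
    W.addY (vcX C x₁) (vcX C x₂) (vcY C x₁ y₁) ((C.u : K) * l + C.s) =
      vcY C (W'.addX x₁ x₂ l) (W'.addY x₁ x₂ y₁ l) := by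
  rw [Affine.addY, Affine.addY, ← vc_negY h, vc_addX h]
  congr 1
  rw [Affine.negAddY, Affine.negAddY, vc_addX h, vcX, vcX, vcY, vcY]
  ring

variable [DecidableEq K]

lemma vc_slope {x₁ x₂ y₁ y₂ : K} (h₁ : W'.Equation x₁ y₁) (h₂ : W'.Equation x₂ y₂)
    (hxy : ¬(x₁ = x₂ ∧ y₁ = W'.negY x₂ y₂)) :
    W.slope (vcX C x₁) (vcX C x₂) (vcY C x₁ y₁) (vcY C x₂ y₂) =
      (C.u : K) * W'.slope x₁ x₂ y₁ y₂ + C.s := by
  by_cases hx : x₁ = x₂
  · subst hx
    have hy : y₁ ≠ W'.negY x₁ y₂ := fun e => hxy ⟨rfl, e⟩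
    obtain rfl : y₁ = y₂ := Affine.Y_eq_of_Y_ne h₁ h₂ rfl hy
    have hy' : vcY C x₁ y₁ ≠ W.negY (vcX C x₁) (vcY C x₁ y₁) := by
      rw [vc_negY h]
      exact fun e => hy (vcY_injective C x₁ e)
    have hY : W'.polynomialY.evalEval x₁ y₁ ≠ 0 := fun e => hy (by
      rw [Affine.evalEval_polynomialY] at e
      rw [Affine.negY]
      linear_combination e)
    have hu : (C.u : K) ≠ 0 := C.u.ne_zero
    rw [Affine.slope_of_Y_ne_eq_evalEval rfl hy', Affine.slope_of_Y_ne_eq_evalEval rfl hy,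
      vc_evalEval_polynomialX h, vc_evalEval_polynomialY h]
    field_simp
    ring
  · have hu : (C.u : K) ≠ 0 := C.u.ne_zero
    have hx' : x₁ - x₂ ≠ 0 := sub_ne_zero.mpr hx
    rw [Affine.slope_of_X_ne (fun e => hx (vcX_injective C e)), Affine.slope_of_X_ne hx, vcX, vcX,
      vcY, vcY, show (C.u : K) ^ 2 * x₁ + C.r - ((C.u : K) ^ 2 * x₂ + C.r) =
        (C.u : K) ^ 2 * (x₁ - x₂) by ring]
    field_simp
    ring

end Coordinates

section Points

variable {K : Type u} [Field K] [DecidableEq K] {C : VariableChange K} {W W' : Affine K}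
  (h : C • W = W')

include h

omit [DecidableEq K] in
/-- The inverse direction: `W = C⁻¹ • W'`. -/
lemma vc_inv_smul : C⁻¹ • W' = W := by
  rw [← h, inv_smul_smul]

omit h [DecidableEq K] in
lemma vc_left_inverse (x y : K) :
    vcX C (vcX C⁻¹ x) = x ∧ vcY C (vcX C⁻¹ x) (vcY C⁻¹ x y) = y := by
  simp only [vcX, vcY, VariableChange.inv_def]
  have hu : (C.u : K) ≠ 0 := C.u.ne_zero
  constructor <;> (simp only [Units.val_inv_eq_inv_val]; field_simp; ring)

/-- The map on points `W'(K) → W(K)` induced by `C • W = W'`. -/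
def vcPointFun : W'.Point → W.Point
  | .zero => .zero
  | .some x y hxy => .some (vcX C x) (vcY C x y) ((vc_nonsingular_iff h x y).mpr hxy)

omit [DecidableEq K] in
lemma vcPointFun_zero : vcPointFun h 0 = 0 :=
  rfl

omit [DecidableEq K] in
lemma vcPointFun_some {x y : K} (hxy : W'.Nonsingular x y) :
    vcPointFun h (.some x y hxy) =
      .some (vcX C x) (vcY C x y) ((vc_nonsingular_iff h x y).mpr hxy) :=
  rfl

lemma vcPointFun_add (P Q : W'.Point) :
    vcPointFun h (P + Q) = vcPointFun h P + vcPointFun h Q := by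
  rcases P with _ | ⟨x₁, y₁, h₁⟩
  · simp only [← Affine.Point.zero_def, zero_add, vcPointFun_zero]
  rcases Q with _ | ⟨x₂, y₂, h₂⟩
  · simp only [← Affine.Point.zero_def, add_zero, vcPointFun_zero]
  by_cases hxy : x₁ = x₂ ∧ y₁ = W'.negY x₂ y₂
  · rw [Affine.Point.add_of_Y_eq hxy.1 hxy.2, vcPointFun_zero, vcPointFun_some, vcPointFun_some,
      Affine.Point.add_of_Y_eq (congrArg _ hxy.1)
        (by rw [vc_negY h, hxy.1, hxy.2])]
  · have hxy' : ¬(vcX C x₁ = vcX C x₂ ∧ vcY C x₁ y₁ = W.negY (vcX C x₂) (vcY C x₂ y₂)) := by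
      rintro ⟨e₁, e₂⟩
      obtain rfl := vcX_injective C e₁
      rw [vc_negY h] at e₂
      exact hxy ⟨rfl, vcY_injective C _ e₂⟩
    simp only [Affine.Point.add_some hxy, vcPointFun_some, Affine.Point.add_some hxy',
      vc_slope h h₁.left h₂.left hxy, vc_addX h, vc_addY h]

/-- An admissible change of variables `C • W = W'` gives `W'(K) ≃+ W(K)`,
`(x, y) ↦ (u²x + r, u³y + u²sx + t)`. -/
noncomputable def vcPointEquiv : W'.Point ≃+ W.Point :=
  AddEquiv.ofBijective (AddMonoidHom.mk' (vcPointFun h) (vcPointFun_add h)) <| by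
    refine ⟨?_, ?_⟩
    · rintro (_ | ⟨x₁, y₁, h₁⟩) (_ | ⟨x₂, y₂, h₂⟩) e
      · rfl
      · exact absurd e (by simp [vcPointFun])
      · exact absurd e (by simp [vcPointFun])
      · simp only [AddMonoidHom.mk'_apply, vcPointFun_some, Affine.Point.some.injEq] at e
        obtain rfl := vcX_injective C e.1
        obtain rfl := vcY_injective C _ e.2
        rfl
    · rintro (_ | ⟨x, y, hxy⟩)
      · exact ⟨0, rfl⟩
      · refine ⟨.some _ _ ((vc_nonsingular_iff (vc_inv_smul h) x y).mpr hxy), ?_⟩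
        simp only [AddMonoidHom.mk'_apply, vcPointFun_some, Affine.Point.some.injEq]
        exact vc_left_inverse x y

lemma vcPointEquiv_zero : vcPointEquiv h 0 = 0 :=
  map_zero _

lemma vcPointEquiv_some {x y : K} (hxy : W'.Nonsingular x y) :
    vcPointEquiv h (.some x y hxy) =
      .some (vcX C x) (vcY C x y) ((vc_nonsingular_iff h x y).mpr hxy) :=
  rfl

end Points

end Fermat.Agent.EC
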