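import Fermat.Agent.EC.Det.CyclotomicChar
import Fermat.Agent.Density.FrobeniusDensity
import Fermat.Prelude.Def_FreyPackage_DetCyclotomic
import Fermat.Prelude.Def_GaloisRep_Residual

/-!
# `det` of the Galois action on `E[n]` from its values at Frobenius elements
-/

set_option autoImplicit false

noncomputable section

open WeierstrassCurve.Affine (Point)
open WeierstrassCurve.Affine.Point
open scoped WeierstrassCurve.Affine

namespace Fermat.Agent.EC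

local notation "ℚ̄" => AlgebraicClosure ℚ
local notation "Γℚ" => (AlgebraicClosure ℚ ≃ₐ[ℚ] AlgebraicClosure ℚ)

theorem coe_galoisRep_eq (W : WeierstrassCurve ℚ) (n : ℕ) (σ : Γℚ) :
    ((galoisRep (S := ℚ) (K := ℚ̄) W n σ) :
        Submodule.torsionBy ℤ (W⁄ℚ̄).Point n →ₗ[ZMod n] Submodule.torsionBy ℤ (W⁄ℚ̄).Point n) =
      galoisRepModuleEnd ℚ W n σ :=
  LinearMap.ext fun _ => rfl

theorem coe_galoisRepDet (W : WeierstrassCurve ℚ) (n : ℕ) (σ : Γℚ) :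
    ((galoisRepDet (S := ℚ) (K := ℚ̄) W n σ : (ZMod n)ˣ) : ZMod n) =
      LinearMap.det (galoisRepModuleEnd (K := ℚ̄) ℚ W n σ) := by
  rw [galoisRepDet_apply, LinearEquiv.coe_det, coe_galoisRep_eq]

/-- A finite torsion module is acted on through a finite level. -/
theorem exists_finiteLevel_smul_eq (W : WeierstrassCurve ℚ) (n : ℕ)
    [Finite (Submodule.torsionBy ℤ (W⁄ℚ̄).Point n)] :
    ∃ L : IntermediateField ℚ ℚ̄, FiniteDimensional ℚ L ∧ ∀ σ : Γℚ, (∀ x ∈ L, σ x = x) →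
      ∀ P : Submodule.torsionBy ℤ (W⁄ℚ̄).Point n, σ • P = P := by
  let f : (W⁄ℚ̄).Point → Set ℚ̄ := fun P => match P with
    | .zero => ∅
    | .some x y _ => {x, y}
  let s : Set ℚ̄ := ⋃ P : Submodule.torsionBy ℤ (W⁄ℚ̄).Point n, f P
  have hs : s.Finite := Set.finite_iUnion fun P => by
    rcases hP : (P : (W⁄ℚ̄).Point) with _ | ⟨x, y, h⟩ <;> simp [f]
  haveI := hs.to_subtype
  refine ⟨IntermediateField.adjoin ℚ s,
    IntermediateField.finiteDimensional_adjoin fun x _ =>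
      ((AlgebraicClosure.isAlgebraic ℚ).isAlgebraic x).isIntegral, fun σ hσ P => ?_⟩
  apply Subtype.ext
  change Point.map σ.toAlgHom (P : (W⁄ℚ̄).Point) = (P : (W⁄ℚ̄).Point)
  have hmem : ∀ z ∈ f P, σ z = z := fun z hz =>
    hσ z (IntermediateField.subset_adjoin ℚ s (Set.mem_iUnion.mpr ⟨P, hz⟩))
  rcases hP : (P : (W⁄ℚ̄).Point) with _ | ⟨x, y, h⟩
  · rfl
  · rw [hP] at hmem
    rw [WeierstrassCurve.Affine.Point.map_some]
    simp [hmem x (by simp [f]), hmem y (by simp [f])]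

/-- `det` of the action on `E[n]` is cyclotomic as soon as it is so at almost all Frobenius
elements. -/
theorem galoisRepDet_eq_cycloChar_of_frobenius (W : WeierstrassCurve ℚ) (n : ℕ) [NeZero n]
    [Finite (Submodule.torsionBy ℤ (W⁄ℚ̄).Point n)] (S : Finset ℕ)
    (h : ∀ ℓ : ℕ, ℓ.Prime → ℓ ∉ S → ∀ (A : ValuationSubring ℚ̄) (σ : Γℚ),
      A.LiesOverPrime ℓ → A.IsFrobeniusAt σ ℓ →
        LinearMap.det (galoisRepModuleEnd (K := ℚ̄) ℚ W n σ) = (ℓ : ZMod n)) (g : Γℚ) :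
    galoisRepDet (S := ℚ) (K := ℚ̄) W n g = cycloChar n g := by
  obtain ⟨L₁, hL₁, hfix₁⟩ := exists_finiteLevel_smul_eq W n
  obtain ⟨L₂, hL₂, hfix₂⟩ := cycloChar_factors n
  let D : Γℚ →* (ZMod n)ˣ × (ZMod n)ˣ := (galoisRepDet (S := ℚ) (K := ℚ̄) W n).prod (cycloChar n)
  have hD : ∃ L : IntermediateField ℚ ℚ̄, FiniteDimensional ℚ L ∧
      ∀ σ : Γℚ, (∀ x ∈ L, σ x = x) → D σ = 1 := by
    refine ⟨L₁ ⊔ L₂, IntermediateField.finiteDimensional_sup L₁ L₂, fun σ hσ => Prod.ext ?_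
      (hfix₂ σ fun x hx => hσ x ((le_sup_right : L₂ ≤ L₁ ⊔ L₂) hx))⟩
    change galoisRepDet (S := ℚ) (K := ℚ̄) W n σ = 1
    apply Units.ext
    rw [coe_galoisRepDet, Units.val_one,
      show galoisRepModuleEnd (K := ℚ̄) ℚ W n σ = LinearMap.id from LinearMap.ext
        (hfix₁ σ fun x hx => hσ x ((le_sup_left : L₁ ≤ L₁ ⊔ L₂) hx)), LinearMap.det_id]
  obtain ⟨ℓ, hℓ, hℓS, A, σ, hA, hσ, -, a, b, -, hgb⟩ :=
    Density.exists_isFrobeniusAt_map_pow D hD g (S ∪ n.primeFactors)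
  rw [Finset.mem_union, not_or] at hℓS
  have hℓn : ¬ ℓ ∣ n := fun hd => hℓS.2 (Nat.mem_primeFactors.mpr ⟨hℓ, hd, NeZero.ne n⟩)
  have key : galoisRepDet (S := ℚ) (K := ℚ̄) W n σ = cycloChar n σ := Units.ext <| by
    rw [coe_galoisRepDet, h ℓ hℓ hℓS.1 A σ hA hσ, cycloChar_eq_of_isFrobeniusAt hℓ hℓn hA hσ]
  have h1 := congrArg Prod.fst hgb
  have h2 := congrArg Prod.snd hgb
  simp only [Prod.pow_fst, Prod.pow_snd] at h1 h2
  change galoisRepDet (S := ℚ) (K := ℚ̄) W n g = galoisRepDet (S := ℚ) (K := ℚ̄) W n σ ^ b at h1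
  change cycloChar n g = cycloChar n σ ^ b at h2
  rw [h1, h2, key]

theorem galoisRepDetEqCyclotomic_of_frobenius (W : WeierstrassCurve ℚ) (n : ℕ) [NeZero n]
    [Finite (Submodule.torsionBy ℤ (W⁄ℚ̄).Point n)] (S : Finset ℕ)
    (h : ∀ ℓ : ℕ, ℓ.Prime → ℓ ∉ S → ∀ (A : ValuationSubring ℚ̄) (σ : Γℚ),
      A.LiesOverPrime ℓ → A.IsFrobeniusAt σ ℓ →
        LinearMap.det (galoisRepModuleEnd (K := ℚ̄) ℚ W n σ) = (ℓ : ZMod n))
    (hn : Nat.card (rootsOfUnity n ℚ̄) = n) :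
    GaloisRepDetEqCyclotomic (K := ℚ̄) ℚ W n hn := fun σ =>
  galoisRepDet_eq_cycloChar_of_frobenius W n S h σ

end Fermat.Agent.EC
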