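import Fermat.Agent.EC.Det.Cyclotomic
import Fermat.Agent.EC.Det.Transport

/-!
# `det = χ` for every elliptic curve over `ℚ`
-/

set_option autoImplicit false

noncomputable section

open WeierstrassCurve.Affine.Point
open scoped WeierstrassCurve.Affine

namespace Fermat.Agent.EC

local notation "ℚ̄" => AlgebraicClosure ℚ
local notation "Γℚ" => (AlgebraicClosure ℚ ≃ₐ[ℚ] AlgebraicClosure ℚ)

theorem galoisRepDetEqCyclotomic_of_isElliptic (E : WeierstrassCurve ℚ) [E.IsElliptic] (p : ℕ)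
    [Fact p.Prime] [NeZero p] (hn : Nat.card (rootsOfUnity p ℚ̄) = p) :
    GaloisRepDetEqCyclotomic (K := ℚ̄) ℚ E.toAffine p hn :=
  galoisRepDetEqCyclotomic_of_integral p hn
    (fun _ hΔ => galoisRepDetEqCyclotomic hΔ p hn) E

theorem det_galoisRepModuleEnd_eq_cycloChar_of_isElliptic (E : WeierstrassCurve ℚ) [E.IsElliptic]
    (p : ℕ) [Fact p.Prime] [NeZero p] (σ : Γℚ) :
    LinearMap.det (galoisRepModuleEnd (K := ℚ̄) ℚ E.toAffine p σ) = (cycloChar p σ : ZMod p) := by
  rw [← coe_galoisRepDet, galoisRepDetEqCyclotomic_of_isElliptic E p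
    (IsAlgClosed.card_rootsOfUnity_eq ℚ̄ p) σ]
  rfl

end Fermat.Agent.EC
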